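import Mathlib

/-!
# S52 / E1: the transfer step via a translation trick

`k` algebraically closed, `W0` a Weierstrass curve over a subfield `k0` with `Δ ≠ 0`,
`L` the function field of `W0` over `k`, `g` the generic point in `E(L)`.
If `ψ` is an additive endomorphism of `E(L)` that commutes with every `k`-algebra
endomorphism of `L` and `ψ g` is a constant point, then `ψ` kills every constant point.
-/

set_option autoImplicit false

open WeierstrassCurve WeierstrassCurve.Affine Polynomial
open scoped Polynomial.Bivariate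

namespace Fermat.Agent.S52.H23

section Generic

variable {k0 : Type*} {k : Type*} [Field k0] [Field k] [Algebra k0 k] (W0 : Affine k0)

variable (k) in
/-- The function field of `W0` over `k`. -/
abbrev FunField : Type _ := (W0⁄k).FunctionField

variable (k) in
/-- The `x`-coordinate of the generic point. -/
noncomputable def genX : FunField k W0 :=
  algebraMap (W0⁄k).CoordinateRing (FunField k W0) (CoordinateRing.mk (W0⁄k) (C X))

variable (k) in
/-- The `y`-coordinate of the generic point. -/
noncomputable def genY : FunField k W0 :=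
  algebraMap (W0⁄k).CoordinateRing (FunField k W0) (CoordinateRing.mk (W0⁄k) Y)

lemma algebraMap_eq_mk (c : k) :
    algebraMap k (FunField k W0) c =
      algebraMap (W0⁄k).CoordinateRing (FunField k W0) (CoordinateRing.mk (W0⁄k) (C (C c))) := by
  rw [IsScalarTower.algebraMap_apply k (W0⁄k).CoordinateRing (FunField k W0)]
  rfl

lemma algebraMap_eq_mk' (c : k0) :
    algebraMap k0 (FunField k W0) c =
      algebraMap (W0⁄k).CoordinateRing (FunField k W0)
        (CoordinateRing.mk (W0⁄k) (C (C (algebraMap k0 k c)))) := by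
  rw [IsScalarTower.algebraMap_apply k0 k (FunField k W0), algebraMap_eq_mk]

lemma gen_equation : (W0⁄(FunField k W0)).Equation (genX k W0) (genY k W0) := by
  rw [Affine.equation_iff]
  have h : CoordinateRing.mk (W0⁄k) (W0⁄k).polynomial = 0 := AdjoinRoot.mk_self
  have h' := congrArg (algebraMap (W0⁄k).CoordinateRing (FunField k W0)) h
  simp only [WeierstrassCurve.Affine.polynomial, map_sub, map_add, map_mul, map_pow, map_zero]
    at h'
  simp only [Affine.baseChange, WeierstrassCurve.baseChange, WeierstrassCurve.map_a₁,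
    WeierstrassCurve.map_a₂, WeierstrassCurve.map_a₃, WeierstrassCurve.map_a₄,
    WeierstrassCurve.map_a₆, algebraMap_eq_mk', genX, genY] at h' ⊢
  linear_combination h'


lemma baseChange_Δ_ne_zero (hΔ : W0.Δ ≠ 0) (F : Type*) [Field F] [Algebra k0 F] :
    (W0⁄F).Δ ≠ 0 := by
  have : (W0⁄F).Δ = algebraMap k0 F W0.Δ := WeierstrassCurve.map_Δ W0 (algebraMap k0 F)
  rw [this]
  exact (map_ne_zero_iff _ (algebraMap k0 F).injective).mpr hΔ

lemma gen_nonsingular (hΔ : W0.Δ ≠ 0) :
    (W0⁄(FunField k W0)).Nonsingular (genX k W0) (genY k W0) :=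
  (equation_iff_nonsingular_of_Δ_ne_zero (baseChange_Δ_ne_zero W0 hΔ _)).mp (gen_equation W0)

variable [DecidableEq k] [DecidableEq (FunField k W0)]

variable (k) in
/-- The generic point of `W0` over its function field. -/
noncomputable def genericPoint (hΔ : W0.Δ ≠ 0) : (W0⁄(FunField k W0)).Point :=
  .some _ _ (gen_nonsingular W0 hΔ)

/-- The subgroup of constant points. -/
noncomputable abbrev constPts : AddSubgroup (W0⁄(FunField k W0)).Point :=
  (Point.baseChange (W' := W0) k (FunField k W0)).range

omit [DecidableEq k] [DecidableEq (FunField k W0)] in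
lemma genX_not_const (c : k) : genX k W0 ≠ algebraMap k (FunField k W0) c := by
  intro h
  rw [algebraMap_eq_mk, genX] at h
  have h1 := IsFractionRing.injective (W0⁄k).CoordinateRing (FunField k W0) h
  have h2 : (X - C c : k[X]) • (1 : (W0⁄k).CoordinateRing)
      + (0 : k[X]) • CoordinateRing.mk (W0⁄k) Y = 0 := by
    rw [zero_smul, add_zero, CoordinateRing.smul, mul_one, map_sub, map_sub, h1, sub_self]
  have h3 := (CoordinateRing.smul_basis_eq_zero h2).1
  exact X_sub_C_ne_zero c h3

lemma genericPoint_not_const (hΔ : W0.Δ ≠ 0) : genericPoint k W0 hΔ ∉ constPts W0 := by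
  rintro ⟨P, hP⟩
  rcases P with _ | ⟨x, y, h⟩
  · exact Point.some_ne_zero _ hP.symm
  · rw [genericPoint, Point.baseChange, Point.map_some, Point.some.injEq] at hP
    exact genX_not_const W0 x hP.1.symm


section Lift

variable {F : Type*} [Field F] [Algebra k0 F] [Algebra k F] [IsScalarTower k0 k F]

omit [DecidableEq k] [DecidableEq (FunField k W0)] in
lemma eval₂_polynomial {x y : F} (h : (W0⁄F).Equation x y) :
    eval₂ (↑(Polynomial.aeval (R := k) x) : k[X] →+* F) y (W0⁄k).polynomial = 0 := by
  rw [Affine.equation_iff] at h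
  simp only [WeierstrassCurve.Affine.polynomial, eval₂_sub, eval₂_add, eval₂_mul, eval₂_pow,
    eval₂_X, eval₂_C, RingHom.coe_coe, map_add, map_mul, map_pow, aeval_X, aeval_C,
    Affine.baseChange, WeierstrassCurve.baseChange, WeierstrassCurve.map_a₁,
    WeierstrassCurve.map_a₂, WeierstrassCurve.map_a₃, WeierstrassCurve.map_a₄,
    WeierstrassCurve.map_a₆, ← IsScalarTower.algebraMap_apply k0 k F] at h ⊢
  linear_combination h

variable (k) in
/-- The `k`-algebra hom from the coordinate ring of `W0` over `k` determined by a point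
over an extension field `F` of `k`. -/
noncomputable def coordLift {x y : F} (h : (W0⁄F).Equation x y) :
    (W0⁄k).CoordinateRing →ₐ[k] F :=
  AdjoinRoot.liftAlgHom (W0⁄k).polynomial (Polynomial.aeval x) y (eval₂_polynomial W0 h)

omit [DecidableEq k] [DecidableEq (FunField k W0)] in
lemma coordLift_mk_C {x y : F} (h : (W0⁄F).Equation x y) (p : k[X]) :
    coordLift k W0 h (CoordinateRing.mk (W0⁄k) (C p)) = Polynomial.aeval x p := by
  simp [coordLift, AdjoinRoot.liftAlgHom]

omit [DecidableEq k] [DecidableEq (FunField k W0)] in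
lemma coordLift_mk_Y {x y : F} (h : (W0⁄F).Equation x y) :
    coordLift k W0 h (CoordinateRing.mk (W0⁄k) Y) = y := by
  simp [coordLift, AdjoinRoot.liftAlgHom]

omit [DecidableEq k] [DecidableEq (FunField k W0)] in
lemma coordLift_smul_basis {x y : F} (h : (W0⁄F).Equation x y) (p q : k[X]) :
    coordLift k W0 h (p • (1 : (W0⁄k).CoordinateRing) + q • CoordinateRing.mk (W0⁄k) Y)
      = Polynomial.aeval x p + Polynomial.aeval x q * y := by
  rw [CoordinateRing.smul, CoordinateRing.smul, mul_one, map_add, map_mul, coordLift_mk_C,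
    coordLift_mk_C, coordLift_mk_Y]

omit [DecidableEq k] [DecidableEq (FunField k W0)] in
/-- If the `x`-coordinate of the point is transcendental over `k`, the lift is injective. -/
lemma coordLift_injective [IsAlgClosed k] {x y : F} (h : (W0⁄F).Equation x y)
    (hx : x ∉ (algebraMap k F).range) : Function.Injective (coordLift k W0 h) := by
  rw [injective_iff_map_eq_zero]
  intro a ha
  obtain ⟨p, q, rfl⟩ := CoordinateRing.exists_smul_basis_eq a
  by_contra hne
  rw [coordLift_smul_basis] at ha
  have : Module.Finite k[X] (W0⁄k).CoordinateRing :=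
    Module.Finite.of_basis (CoordinateRing.basis (W0⁄k))
  have hN : Algebra.norm k[X] (p • (1 : (W0⁄k).CoordinateRing) + q • CoordinateRing.mk (W0⁄k) Y)
      ≠ 0 := fun h0 => hne (Algebra.norm_eq_zero_iff.mp h0)
  rw [CoordinateRing.norm_smul_basis] at hN
  have heq := (Affine.equation_iff _ _).mp h
  have hroot : Polynomial.aeval x (p ^ 2 - p * q * (C (W0⁄k).a₁ * X + C (W0⁄k).a₃)
      - q ^ 2 * (X ^ 3 + C (W0⁄k).a₂ * X ^ 2 + C (W0⁄k).a₄ * X + C (W0⁄k).a₆)) = 0 := by
    simp only [map_sub, map_add, map_mul, map_pow, aeval_X, aeval_C,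
      Affine.baseChange, WeierstrassCurve.baseChange, WeierstrassCurve.map_a₁,
      WeierstrassCurve.map_a₂, WeierstrassCurve.map_a₃, WeierstrassCurve.map_a₄,
      WeierstrassCurve.map_a₆, ← IsScalarTower.algebraMap_apply k0 k F] at heq ⊢
    linear_combination (Polynomial.aeval x p - Polynomial.aeval x q *
      (y + algebraMap k0 F W0.a₁ * x + algebraMap k0 F W0.a₃)) * ha
      + (Polynomial.aeval x q) ^ 2 * heq
  have halg : IsAlgebraic k x := ⟨_, hN, hroot⟩
  have hint : IsIntegral k x := halg.isIntegral
  exact hx (minpoly.mem_range_of_degree_eq_one k x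
    (IsAlgClosed.degree_eq_one_of_irreducible k (minpoly.irreducible hint)))

end Lift

/-- A point over the function field whose `x`-coordinate lies in `k` is constant. -/
lemma mem_constPts_of_x_mem [IsAlgClosed k] {x y : FunField k W0}
    (h : (W0⁄(FunField k W0)).Nonsingular x y) (hx : x ∈ (algebraMap k (FunField k W0)).range) :
    Point.some _ _ h ∈ constPts W0 := by
  obtain ⟨c, rfl⟩ := hx
  have heq := (Affine.equation_iff _ _).mp h.1
  have hint : IsIntegral k y := by
    refine ⟨X ^ 2 + C ((W0⁄k).a₁ * c + (W0⁄k).a₃) * X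
      - C (c ^ 3 + (W0⁄k).a₂ * c ^ 2 + (W0⁄k).a₄ * c + (W0⁄k).a₆), ?_, ?_⟩
    · have : (X ^ 2 + C ((W0⁄k).a₁ * c + (W0⁄k).a₃) * X
          - C (c ^ 3 + (W0⁄k).a₂ * c ^ 2 + (W0⁄k).a₄ * c + (W0⁄k).a₆) : k[X])
          = X ^ 2 + (C ((W0⁄k).a₁ * c + (W0⁄k).a₃) * X
          - C (c ^ 3 + (W0⁄k).a₂ * c ^ 2 + (W0⁄k).a₄ * c + (W0⁄k).a₆)) := by ring
      rw [this]
      apply Polynomial.monic_X_pow_add
      refine lt_of_le_of_lt (degree_sub_le _ _) (max_lt ?_ ?_)
      · exact lt_of_le_of_lt (degree_C_mul_X_le _) (by norm_num)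
      · exact lt_of_le_of_lt degree_C_le (by norm_num)
    · simp only [eval₂_sub, eval₂_add, eval₂_mul, eval₂_pow, eval₂_X, eval₂_C, map_add, map_mul,
        map_pow, Affine.baseChange, WeierstrassCurve.baseChange, WeierstrassCurve.map_a₁,
        WeierstrassCurve.map_a₂, WeierstrassCurve.map_a₃, WeierstrassCurve.map_a₄,
        WeierstrassCurve.map_a₆, ← IsScalarTower.algebraMap_apply k0 k (FunField k W0)] at heq ⊢
      linear_combination heq
  obtain ⟨d, rfl⟩ := minpoly.mem_range_of_degree_eq_one k y
    (IsAlgClosed.degree_eq_one_of_irreducible k (minpoly.irreducible hint))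
  have hns : (W0⁄k).Nonsingular c d :=
    (W0.baseChange_nonsingular (Algebra.ofId k (FunField k W0)).injective c d).mp h
  exact ⟨Point.some _ _ hns, rfl⟩

/-- **Transfer core** (translation trick).  An additive endomorphism of `E(L)` which commutes
with all `k`-algebra endomorphisms of the function field `L` and sends the generic point to a
constant point kills every constant point. -/
theorem transfer_core [IsAlgClosed k] (hΔ : W0.Δ ≠ 0)
    (ψ : (W0⁄(FunField k W0)).Point →+ (W0⁄(FunField k W0)).Point)
    (hψ : ∀ (θ : FunField k W0 →ₐ[k] FunField k W0) (P : (W0⁄(FunField k W0)).Point),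
      ψ (Point.map θ P) = Point.map θ (ψ P))
    (hconst : ψ (genericPoint k W0 hΔ) ∈ constPts W0) (T : (W0⁄k).Point) :
    ψ (Point.baseChange k (FunField k W0) T) = 0 := by
  have hQ : genericPoint k W0 hΔ + Point.baseChange k (FunField k W0) T ∉ constPts W0 := by
    intro hmem
    exact genericPoint_not_const W0 hΔ ((AddSubgroup.add_mem_cancel_right (H := constPts W0)
      (AddMonoidHom.mem_range.mpr ⟨T, rfl⟩)).mp hmem)
  obtain ⟨x, y, h, hxy⟩ : ∃ x y, ∃ h : (W0⁄(FunField k W0)).Nonsingular x y,
      genericPoint k W0 hΔ + Point.baseChange k (FunField k W0) T = Point.some x y h := by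
    rcases hq : genericPoint k W0 hΔ + Point.baseChange k (FunField k W0) T with _ | ⟨x, y, h⟩
    · exact absurd (hq ▸ (constPts W0).zero_mem) hQ
    · exact ⟨x, y, h, rfl⟩
  rw [hxy] at hQ
  have hx : x ∉ (algebraMap k (FunField k W0)).range :=
    fun hx => hQ (mem_constPts_of_x_mem W0 h hx)
  have hinj := coordLift_injective W0 h.1 hx
  have hθ : Point.map (W' := W0) (IsFractionRing.liftAlgHom (K := FunField k W0) hinj)
      (genericPoint k W0 hΔ) = Point.some x y h := by
    rw [genericPoint, Point.map_some]
    simp only [genX, genY, IsFractionRing.liftAlgHom_apply, IsFractionRing.lift_algebraMap]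
    congr 1
    · simpa using coordLift_mk_C W0 h.1 X
    · exact coordLift_mk_Y W0 h.1
  obtain ⟨R, hR⟩ := hconst
  have h1 : ψ (Point.some x y h) = ψ (genericPoint k W0 hΔ) := by
    rw [← hθ, hψ, ← hR]
    exact Point.map_baseChange _ R
  rw [← hxy, map_add] at h1
  exact add_eq_left.mp h1

end Generic

section Frobenius

variable (p : ℕ) [Fact p.Prime]

/-- The `p`-power Frobenius of a field of characteristic `p`, as a `ZMod p`-algebra hom. -/
noncomputable def frobAlg (F : Type*) [Field F] [Algebra (ZMod p) F] : F →ₐ[ZMod p] F :=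
  haveI : CharP F p := charP_of_injective_algebraMap (algebraMap (ZMod p) F).injective p
  { frobenius F p with
    commutes' := fun c => by
      show (algebraMap (ZMod p) F c) ^ p = _
      rw [← map_pow, ZMod.pow_card] }

lemma frobAlg_apply (F : Type*) [Field F] [Algebra (ZMod p) F] (x : F) :
    frobAlg p F x = x ^ p := rfl

variable (W0 : Affine (ZMod p))

/-- Frobenius on the points of a curve defined over `ZMod p`. -/
noncomputable def frobPt (F : Type*) [Field F] [Algebra (ZMod p) F] [DecidableEq F] :
    (W0⁄F).Point →+ (W0⁄F).Point :=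
  Point.map (W' := W0) (frobAlg p F)

lemma frobPt_some (F : Type*) [Field F] [Algebra (ZMod p) F] [DecidableEq F] {x y : F}
    (h : (W0⁄F).Nonsingular x y) :
    frobPt p W0 F (Point.some _ _ h) = Point.some (x ^ p) (y ^ p)
      ((W0.baseChange_nonsingular (frobAlg p F).injective x y).mpr h) := rfl

/-- Frobenius commutes with the maps on points induced by field homomorphisms. -/
lemma frobPt_map {k : Type*} [Field k] [Algebra (ZMod p) k] {F F' : Type*} [Field F] [Field F']
    [Algebra (ZMod p) F] [Algebra (ZMod p) F'] [Algebra k F] [Algebra k F']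
    [IsScalarTower (ZMod p) k F] [IsScalarTower (ZMod p) k F'] [DecidableEq F] [DecidableEq F']
    (θ : F →ₐ[k] F') (P : (W0⁄F).Point) :
    frobPt p W0 F' (Point.map θ P) = Point.map θ (frobPt p W0 F P) := by
  rcases P with _ | ⟨x, y, h⟩
  · rfl
  · simp only [frobPt, Point.map_some, frobAlg_apply, map_pow]

variable {k : Type*} [Field k] [Algebra (ZMod p) k] [DecidableEq k]
  [DecidableEq (FunField k W0)]

/-- **Transfer for Frobenius.**  If `Frob² - a Frob + b` sends the generic point of `W0` to a
constant point, then `Frob² - a Frob + b = 0` on all points over the algebraically closed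
field `k`. -/
theorem frobenius_quadratic_of_generic [IsAlgClosed k] (hΔ : W0.Δ ≠ 0) (a b : ℤ)
    (hgen : frobPt p W0 (FunField k W0) (frobPt p W0 (FunField k W0) (genericPoint k W0 hΔ))
      - a • frobPt p W0 (FunField k W0) (genericPoint k W0 hΔ) + b • genericPoint k W0 hΔ
      ∈ constPts W0) (T : (W0⁄k).Point) :
    frobPt p W0 k (frobPt p W0 k T) - a • frobPt p W0 k T + b • T = 0 := by
  set φ := frobPt p W0 (FunField k W0) with hφ
  have key := transfer_core W0 hΔ (φ.comp φ - a • φ + b • AddMonoidHom.id _)
    (fun θ P => by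
      simp only [AddMonoidHom.add_apply, AddMonoidHom.sub_apply, AddMonoidHom.comp_apply,
        AddMonoidHom.smul_apply, AddMonoidHom.id_apply, map_add, map_sub, map_zsmul, hφ,
        frobPt_map])
    (by simpa using hgen) T
  have hbc : ∀ P : (W0⁄k).Point, φ (Point.baseChange k (FunField k W0) P)
      = Point.baseChange k (FunField k W0) (frobPt p W0 k P) := fun P => frobPt_map p W0 _ P
  simp only [AddMonoidHom.add_apply, AddMonoidHom.sub_apply, AddMonoidHom.comp_apply,
    AddMonoidHom.smul_apply, AddMonoidHom.id_apply] at key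
  rw [hbc, hbc] at key
  have e : Point.baseChange k (FunField k W0)
      (frobPt p W0 k (frobPt p W0 k T) - a • frobPt p W0 k T + b • T) = 0 := by
    rw [map_add, map_sub, map_zsmul, map_zsmul]
    exact key
  exact Point.map_injective _ (e.trans (map_zero _).symm)

end Frobenius

end Fermat.Agent.S52.H23
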