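import Fermat.Agent.S52.H23.Transfer
import Fermat.Agent.S52.H76.MStar
import Fermat.Agent.S05.H98.VarChangePoint

/-!
# S52 / E1: the bridge from the twist `E_lam(F(t))` to `E(L)`

`Θ : (Etw A B).Point →+ E(L)`, `(X, Y) ↦ (ι X / v², ι Y / v³)`, where `L` is the function
field of `E : y² = x³ + A x + B`, `(u, v)` its generic point and `ι : F(t) → L`, `t ↦ u`.
-/

set_option autoImplicit false

open WeierstrassCurve WeierstrassCurve.Affine Polynomial
open scoped Polynomial.Bivariate

namespace Fermat.Agent.S52.H23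

open Fermat.Agent.S52.H76 Fermat.Agent.S05.H98

section SemiMap

variable {K K' : Type*} [Field K] [Field K'] [DecidableEq K] [DecidableEq K']

/-- The map on points induced by a field homomorphism (ring-hom version of `Point.map`). -/
noncomputable def semiMap (W : Affine K) (φ : K →+* K') :
    W.Point →+ (W.map φ).toAffine.Point where
  toFun P := match P with
    | 0 => 0
    | .some x y h => .some (φ x) (φ y) ((W.map_nonsingular φ.injective x y).mpr h)
  map_zero' := rfl
  map_add' := by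
    rintro (_ | ⟨x₁, y₁, h₁⟩) (_ | ⟨x₂, y₂, h₂⟩)
    any_goals rfl
    by_cases hxy : x₁ = x₂ ∧ y₁ = W.negY x₂ y₂
    · rw [Point.add_of_Y_eq hxy.left hxy.right,
        Point.add_of_Y_eq (congr_arg _ hxy.left) <| by rw [hxy.right, map_negY]]
    · simpa only [Point.add_some hxy, ← map_addX, ← map_addY, ← map_slope] using
        (Point.add_some fun h ↦ hxy ⟨φ.injective h.1, φ.injective (W.map_negY φ .. ▸ h).2⟩).symm

lemma semiMap_some (W : Affine K) (φ : K →+* K') {x y : K} (h : W.Nonsingular x y) :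
    semiMap W φ (.some x y h) =
      .some (φ x) (φ y) ((W.map_nonsingular φ.injective x y).mpr h) := rfl

end SemiMap

section Short

variable {k0 : Type*} {k : Type*} [Field k0] [Field k] [Algebra k0 k] (A B : k0)

/-- The short Weierstrass curve `y² = x³ + A x + B`. -/
def sW : Affine k0 := { a₁ := 0, a₂ := 0, a₃ := 0, a₄ := A, a₆ := B }

@[simp] lemma sW_a₁ : (sW A B).a₁ = 0 := rfl
@[simp] lemma sW_a₂ : (sW A B).a₂ = 0 := rfl
@[simp] lemma sW_a₃ : (sW A B).a₃ = 0 := rfl
@[simp] lemma sW_a₄ : (sW A B).a₄ = A := rfl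
@[simp] lemma sW_a₆ : (sW A B).a₆ = B := rfl

lemma sW_Δ : (sW A B).Δ = -16 * (4 * A ^ 3 + 27 * B ^ 2) := by
  simp only [WeierstrassCurve.Δ, WeierstrassCurve.b₂, WeierstrassCurve.b₄, WeierstrassCurve.b₆,
    WeierstrassCurve.b₈, sW_a₁, sW_a₂, sW_a₃, sW_a₄, sW_a₆]
  ring

lemma sW_Δ_ne_zero (h2 : (2 : k0) ≠ 0) (hΔ : 4 * A ^ 3 + 27 * B ^ 2 ≠ 0) : (sW A B).Δ ≠ 0 := by
  rw [sW_Δ]
  have h16 : (-16 : k0) = -(2 ^ 4) := by norm_num
  rw [h16]
  exact mul_ne_zero (neg_ne_zero.mpr (pow_ne_zero 4 h2)) hΔ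

variable (k)

/-- Notation: the function field of `y² = x³ + A x + B` over `k`. -/
abbrev LL : Type _ := FunField k (sW A B)

/-- The generic `x`. -/
noncomputable abbrev gu : LL k A B := genX k (sW A B)

/-- The generic `y`. -/
noncomputable abbrev gv : LL k A B := genY k (sW A B)

lemma gv_sq : gv k A B ^ 2 = gu k A B ^ 3 + algebraMap k0 (LL k A B) A * gu k A B
    + algebraMap k0 (LL k A B) B := by
  have h := (Affine.equation_iff _ _).mp (gen_equation (k := k) (sW A B))
  simp only [Affine.baseChange, WeierstrassCurve.baseChange, WeierstrassCurve.map_a₁,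
    WeierstrassCurve.map_a₂, WeierstrassCurve.map_a₃, WeierstrassCurve.map_a₄,
    WeierstrassCurve.map_a₆, sW_a₁, sW_a₂, sW_a₃, sW_a₄, sW_a₆, map_zero] at h
  linear_combination h

/-- Evaluation of polynomials over `k` at the generic `x` lands in the coordinate ring. -/
lemma aeval_gu (P : k[X]) : Polynomial.aeval (gu k A B) P =
    algebraMap ((sW A B)⁄k).CoordinateRing (LL k A B) (CoordinateRing.mk ((sW A B)⁄k) (C P)) := by
  have h1 : CoordinateRing.mk ((sW A B)⁄k) (C P)
      = Polynomial.aeval (CoordinateRing.mk ((sW A B)⁄k) (C X)) P := by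
    have : CoordinateRing.mk ((sW A B)⁄k) (C X)
        = algebraMap k[X] ((sW A B)⁄k).CoordinateRing X := rfl
    rw [this, Polynomial.aeval_algebraMap_apply, Polynomial.aeval_X_left_apply]
    rfl
  rw [h1, ← Polynomial.aeval_algebraMap_apply]
  rfl

/-- The generic `x` is transcendental over `k`. -/
lemma gu_transcendental (P : k[X]) (hP : Polynomial.aeval (gu k A B) P = 0) : P = 0 := by
  rw [aeval_gu] at hP
  have h1 : CoordinateRing.mk ((sW A B)⁄k) (C P) = 0 :=
    IsFractionRing.injective ((sW A B)⁄k).CoordinateRing (LL k A B) (by rw [hP, map_zero])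
  have h2 : P • (1 : ((sW A B)⁄k).CoordinateRing)
      + (0 : k[X]) • CoordinateRing.mk ((sW A B)⁄k) Y = 0 := by
    rw [zero_smul, add_zero, CoordinateRing.smul, mul_one, h1]
  exact (CoordinateRing.smul_basis_eq_zero h2).1

/-- The generic `x` is transcendental over `k0`. -/
lemma gu_transcendental' (P : k0[X]) (hP : Polynomial.aeval (gu k A B) P = 0) : P = 0 := by
  have h := gu_transcendental k A B (P.map (algebraMap k0 k)) (by
    rw [Polynomial.aeval_map_algebraMap]; exact hP)
  exact (Polynomial.map_eq_zero_iff (algebraMap k0 k).injective).mp h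

/-- `ι : k0(t) → L`, `t ↦ u`. -/
noncomputable def iota : RatFunc k0 →+* LL k A B :=
  RatFunc.liftRingHom (Polynomial.aeval (gu k A B) : k0[X] →ₐ[k0] LL k A B).toRingHom (by
    intro P hP
    rw [Submonoid.mem_comap, mem_nonZeroDivisors_iff_ne_zero]
    intro h0
    exact (mem_nonZeroDivisors_iff_ne_zero.mp hP) (gu_transcendental' k A B P h0))

lemma iota_algebraMap (P : k0[X]) :
    iota k A B (algebraMap k0[X] (RatFunc k0) P) = Polynomial.aeval (gu k A B) P := by
  rw [iota, RatFunc.liftRingHom_algebraMap]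
  rfl

lemma iota_X : iota k A B RatFunc.X = gu k A B := by
  rw [← RatFunc.algebraMap_X, iota_algebraMap, Polynomial.aeval_X]

lemma iota_C (c : k0) : iota k A B (RatFunc.C c) = algebraMap k0 (LL k A B) c := by
  rw [← RatFunc.algebraMap_C, iota_algebraMap, Polynomial.aeval_C]

lemma iota_lam : iota k A B (lam A B) = gv k A B ^ 2 := by
  rw [lam, iota_algebraMap, gv_sq]
  simp [fPoly]

lemma gv_ne_zero : gv k A B ≠ 0 := by
  intro h
  have h1 := iota_lam k A B
  rw [h, zero_pow two_ne_zero] at h1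
  exact lam_ne_zero A B ((map_eq_zero_iff _ (iota k A B).injective).mp h1)

end Short

section Theta

variable {k0 : Type*} (k : Type*) [Field k0] [Field k] [Algebra k0 k] (A B : k0)

/-- The variable change `u := v` on the base-changed twist. -/
noncomputable def vchange : VariableChange (LL k A B) :=
  ⟨Units.mk0 (gv k A B) (gv_ne_zero k A B), 0, 0, 0⟩

lemma vchange_smul :
    vchange k A B • ((Etw A B).map (iota k A B)) = (sW A B)⁄(LL k A B) := by
  have hv := gv_ne_zero k A B
  have hl := iota_lam k A B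
  have hu : (((vchange k A B).u⁻¹ : (LL k A B)ˣ) : LL k A B) = (gv k A B)⁻¹ := by
    rw [Units.val_inv_eq_inv_val]; rfl
  have hr : (vchange k A B).r = 0 := rfl
  have hs : (vchange k A B).s = 0 := rfl
  have ht : (vchange k A B).t = 0 := rfl
  have e1 : ((Etw A B).map (iota k A B)).a₁ = 0 := by
    rw [WeierstrassCurve.map_a₁]; exact map_zero _
  have e2 : ((Etw A B).map (iota k A B)).a₂ = 0 := by
    rw [WeierstrassCurve.map_a₂]; exact map_zero _
  have e3 : ((Etw A B).map (iota k A B)).a₃ = 0 := by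
    rw [WeierstrassCurve.map_a₃]; exact map_zero _
  have e4 : ((Etw A B).map (iota k A B)).a₄
      = algebraMap k0 (LL k A B) A * (gv k A B ^ 2) ^ 2 := by
    rw [WeierstrassCurve.map_a₄]
    show iota k A B (RatFunc.C A * lam A B ^ 2) = _
    rw [map_mul, map_pow, hl, iota_C]
  have e6 : ((Etw A B).map (iota k A B)).a₆
      = algebraMap k0 (LL k A B) B * (gv k A B ^ 2) ^ 3 := by
    rw [WeierstrassCurve.map_a₆]
    show iota k A B (RatFunc.C B * lam A B ^ 3) = _
    rw [map_mul, map_pow, hl, iota_C]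
  have t1 : ((sW A B)⁄(LL k A B)).a₁ = 0 := by
    show algebraMap k0 (LL k A B) (sW A B).a₁ = 0
    rw [sW_a₁, map_zero]
  have t2 : ((sW A B)⁄(LL k A B)).a₂ = 0 := by
    show algebraMap k0 (LL k A B) (sW A B).a₂ = 0
    rw [sW_a₂, map_zero]
  have t3 : ((sW A B)⁄(LL k A B)).a₃ = 0 := by
    show algebraMap k0 (LL k A B) (sW A B).a₃ = 0
    rw [sW_a₃, map_zero]
  have t4 : ((sW A B)⁄(LL k A B)).a₄ = algebraMap k0 (LL k A B) A := rfl
  have t6 : ((sW A B)⁄(LL k A B)).a₆ = algebraMap k0 (LL k A B) B := rfl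
  ext
  · rw [variableChange_a₁, t1, e1, hs]; ring
  · rw [variableChange_a₂, t2, e1, e2, hs, hr]; ring
  · rw [variableChange_a₃, t3, e1, e3, hr, ht]; ring
  · rw [variableChange_a₄, t4, e1, e2, e3, e4, hr, hs, ht, hu]
    field_simp
    ring
  · rw [variableChange_a₆, t6, e1, e2, e3, e4, e6, hr, ht, hu]
    field_simp
    ring

variable [DecidableEq (RatFunc k0)] [DecidableEq (LL k A B)]

/-- The bridge `Θ : E_lam(k0(t)) →+ E(L)`, `(X, Y) ↦ (ι X / v², ι Y / v³)`. -/
noncomputable def Theta : (Etw A B).toAffine.Point →+ ((sW A B)⁄(LL k A B)).Point :=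
  (pointEquivOfEq (vchange k A B) ((Etw A B).map (iota k A B)) ((sW A B)⁄(LL k A B))
    (vchange_smul k A B)).toAddMonoidHom.comp (semiMap (Etw A B).toAffine (iota k A B))

lemma Theta_zero : Theta k A B 0 = 0 := map_zero _

lemma Theta_some {x y : RatFunc k0} (h : (Etw A B).toAffine.Nonsingular x y) :
    ∃ h' : ((sW A B)⁄(LL k A B)).Nonsingular (iota k A B x / gv k A B ^ 2)
      (iota k A B y / gv k A B ^ 3),
      Theta k A B (.some x y h) = .some _ _ h' := by
  have e : Theta k A B (.some x y h) = pointEquivOfEq (vchange k A B) ((Etw A B).map (iota k A B))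
      ((sW A B)⁄(LL k A B)) (vchange_smul k A B)
      (.some (iota k A B x) (iota k A B y)
        (((Etw A B).toAffine.map_nonsingular (iota k A B).injective x y).mpr h)) := rfl
  rw [e, pointEquivOfEq_some]
  have hx : vcX (vchange k A B) (iota k A B x) = iota k A B x / gv k A B ^ 2 := by
    simp [vcX, vchange, div_eq_inv_mul]
  have hy : vcY (vchange k A B) (iota k A B x) (iota k A B y) = iota k A B y / gv k A B ^ 3 := by
    simp [vcY, vchange, div_eq_inv_mul]
  have hns := nonsingular_of_eq (vchange k A B) ((Etw A B).map (iota k A B))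
    (vchange_smul k A B)
    (((Etw A B).toAffine.map_nonsingular (iota k A B).injective x y).mpr h)
  refine ⟨hx ▸ hy ▸ hns, ?_⟩
  exact some_congr _ _ hx hy

/-- (B1) `Θ P0` is the generic point. -/
lemma Theta_P0 (h2 : (2 : k0) ≠ 0) (hΔ : (sW A B).Δ ≠ 0) :
    Theta k A B (P0 A B h2) = genericPoint k (sW A B) hΔ := by
  obtain ⟨h', e⟩ := Theta_some k A B (P0_nonsingular A B h2)
  have hv := gv_ne_zero k A B
  rw [P0, e, genericPoint]
  refine some_congr _ _ ?_ ?_
  · rw [map_mul, iota_lam, iota_X]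
    field_simp
  · rw [map_pow, iota_lam]
    field_simp

omit [DecidableEq (RatFunc k0)] [DecidableEq (LL k A B)] in
lemma eq_C_of_ht_eq_zero {r : RatFunc k0} (h : ht r = 0) : ∃ c : k0, r = RatFunc.C c := by
  have h1 : r.num.natDegree = 0 := Nat.le_zero.mp (h ▸ le_max_left _ _)
  have h2 : r.denom.natDegree = 0 := Nat.le_zero.mp (h ▸ le_max_right _ _)
  refine ⟨r.num.coeff 0 / r.denom.coeff 0, ?_⟩
  conv_lhs => rw [← RatFunc.num_div_denom r, Polynomial.eq_C_of_natDegree_eq_zero h1,
    Polynomial.eq_C_of_natDegree_eq_zero h2]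
  rw [RatFunc.algebraMap_C, RatFunc.algebraMap_C, map_div₀]

/-- (B3) points of height zero go to constant points. -/
lemma Theta_mem_constPts [IsAlgClosed k] [DecidableEq k] {R : (Etw A B).toAffine.Point}
    (hR : hP A B R = 0) : Theta k A B R ∈ constPts (k := k) (sW A B) := by
  rcases R with _ | ⟨x, y, h⟩
  · have e0 : Theta k A B Point.zero = 0 := Theta_zero k A B
    rw [e0]
    exact (constPts (k := k) (sW A B)).zero_mem
  · obtain ⟨c, hc⟩ := eq_C_of_ht_eq_zero (by rwa [hP_some] at hR)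
    obtain ⟨h', e⟩ := Theta_some k A B h
    rw [e]
    refine mem_constPts_of_x_mem (sW A B) h' ⟨algebraMap k0 k c, ?_⟩
    rw [← iota_lam, ← map_div₀, hc, iota_C, ← IsScalarTower.algebraMap_apply]

end Theta

section FrobBridge

lemma pow_aux_two {M : Type*} [CommRing M] (z : M) {n m : ℕ} (h : 2 * m + 1 = n) :
    (z ^ 2) ^ n = ((z ^ 2) ^ m) ^ 2 * z ^ 2 := by
  subst h; ring

lemma pow_aux_three {M : Type*} [CommRing M] (z : M) {n m : ℕ} (h : 2 * m + 1 = n) :
    (z ^ 3) ^ n = ((z ^ 2) ^ m) ^ 3 * z ^ 3 := by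
  subst h; ring

variable (p : ℕ) [Fact p.Prime] (k : Type*) [Field k] [Algebra (ZMod p) k] (A B : ZMod p)
  [DecidableEq (RatFunc (ZMod p))] [DecidableEq (LL k A B)]

/-- (B2) `Θ` intertwines the twisted Frobenius `(X, Y) ↦ (X^p / w², Y^p / w³)`,
`w = lam^((p-1)/2)`, with the Frobenius of `E(L)`. -/
lemma Theta_frob (hp2 : p ≠ 2) {x y x' y' : RatFunc (ZMod p)}
    (h : (Etw A B).toAffine.Nonsingular x y) (h' : (Etw A B).toAffine.Nonsingular x' y')
    (hx : x' * (lam A B ^ ((p - 1) / 2)) ^ 2 = x ^ p)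
    (hy : y' * (lam A B ^ ((p - 1) / 2)) ^ 3 = y ^ p) :
    Theta k A B (.some x' y' h') = frobPt p (sW A B) (LL k A B) (Theta k A B (.some x y h)) := by
  obtain ⟨n1, e1⟩ := Theta_some k A B h
  obtain ⟨n2, e2⟩ := Theta_some k A B h'
  have hv := gv_ne_zero k A B
  have hodd : 2 * ((p - 1) / 2) + 1 = p := by
    have := (Fact.out : p.Prime).eq_two_or_odd
    have h1 := (Fact.out : p.Prime).two_le
    omega
  set m := (p - 1) / 2 with hm
  have hw : (gv k A B ^ 2) ^ m ≠ 0 := pow_ne_zero _ (pow_ne_zero _ hv)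
  have hx' := congrArg (iota k A B) hx
  have hy' := congrArg (iota k A B) hy
  rw [map_mul, map_pow, map_pow, map_pow, iota_lam] at hx' hy'
  rw [e1, e2, frobPt_some]
  refine some_congr _ _ ?_ ?_
  · rw [div_pow, ← hx']
    rw [pow_aux_two (gv k A B) hodd]
    field_simp
  · rw [div_pow, ← hy']
    rw [pow_aux_three (gv k A B) hodd]
    field_simp

variable [DecidableEq k]

/-- **Cayley–Hamilton from the twist.**  If `Φ` is the twisted Frobenius of `E_lam(F_p(t))`
and `Φ² P0 - a Φ P0 + b P0` has height zero, then `π² - a π + b = 0` on `E(k)` for every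
algebraically closed `k ⊇ F_p`. -/
theorem frobenius_quadratic_of_twist [IsAlgClosed k] (hp2 : p ≠ 2)
    (hΔ : 4 * A ^ 3 + 27 * B ^ 2 ≠ 0) (h2 : (2 : ZMod p) ≠ 0)
    (Φ : (Etw A B).toAffine.Point →+ (Etw A B).toAffine.Point)
    (hΦ : ∀ (x y : RatFunc (ZMod p)) (h : (Etw A B).toAffine.Nonsingular x y),
      ∃ (x' y' : RatFunc (ZMod p)) (h' : (Etw A B).toAffine.Nonsingular x' y'),
        Φ (.some x y h) = .some x' y' h' ∧ x' * (lam A B ^ ((p - 1) / 2)) ^ 2 = x ^ p ∧
          y' * (lam A B ^ ((p - 1) / 2)) ^ 3 = y ^ p)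
    (a b : ℤ)
    (hz : hP A B (Φ (Φ (P0 A B h2)) - a • Φ (P0 A B h2) + b • P0 A B h2) = 0)
    (T : ((sW A B)⁄k).Point) :
    frobPt p (sW A B) k (frobPt p (sW A B) k T) - a • frobPt p (sW A B) k T + b • T = 0 := by
  have hΔ' := sW_Δ_ne_zero A B h2 hΔ
  have hcomm : ∀ P : (Etw A B).toAffine.Point,
      Theta k A B (Φ P) = frobPt p (sW A B) (LL k A B) (Theta k A B P) := by
    intro P
    rcases P with _ | ⟨x, y, h⟩
    · have e0 : Φ Point.zero = 0 := map_zero Φ
      have e1 : Theta k A B Point.zero = 0 := Theta_zero k A B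
      rw [e0, e1, Theta_zero, map_zero]
    · obtain ⟨x', y', h', e, hx, hy⟩ := hΦ x y h
      rw [e]
      exact Theta_frob p k A B hp2 h h' hx hy
  refine frobenius_quadratic_of_generic p (sW A B) hΔ' a b ?_ T
  have := Theta_mem_constPts k A B hz
  rwa [map_add, map_sub, map_zsmul, map_zsmul, hcomm, hcomm, Theta_P0 k A B h2 hΔ'] at this

end FrobBridge

end Fermat.Agent.S52.H23
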