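import Fermat.Agent.S52.H23.Bridge
import Fermat.Agent.S52.H94.CHGlue

/-!
# S52 / E1: the transfer leaf of `H94/CHModel.lean` and the export of package E1

* `transferStatement : H94.TransferStatement l A B h2` (from `frobenius_quadratic_of_twist`);
* `chStatement : H94.CHStatement l A B`: Cayley–Hamilton `π² - a π + l = 0` on `E(k)`,
  `a = l + 1 - #E(F_l)`, for every algebraically closed field `k ⊇ F_l`, `l` an odd prime,
  `E : y² = x³ + A x + B` with `4 A³ + 27 B² ≠ 0`.
-/

set_option autoImplicit false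

open WeierstrassCurve WeierstrassCurve.Affine

namespace Fermat.Agent.S52.H23

variable (l : ℕ) [Fact l.Prime] (A B : ZMod l) [DecidableEq (RatFunc (ZMod l))]

omit [DecidableEq (RatFunc (ZMod l))] in
lemma ne_two_of_two_ne_zero (h2 : (2 : ZMod l) ≠ 0) : l ≠ 2 := by
  intro h
  apply h2
  have h3 : ((2 : ℕ) : ZMod l) = 0 := by
    rw [ZMod.natCast_eq_zero_iff, h]
  exact_mod_cast h3

/-- The transfer leaf of package E1, in the exact shape of `H94.TransferStatement`. -/
theorem transferStatement (hΔ : 4 * A ^ 3 + 27 * B ^ 2 ≠ 0) (h2 : (2 : ZMod l) ≠ 0) :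
    H94.TransferStatement l A B h2 := by
  intro Φ hΦ a hz k _ _ _ _ T
  classical
  have hlam := H76.lam_ne_zero A B
  refine frobenius_quadratic_of_twist l k A B (ne_two_of_two_ne_zero l h2) hΔ h2 Φ ?_ a l hz T
  intro x y h
  obtain ⟨h', e⟩ := hΦ x y h
  refine ⟨_, _, h', e, ?_, ?_⟩
  · exact div_mul_cancel₀ _ (pow_ne_zero _ (pow_ne_zero _ hlam))
  · exact div_mul_cancel₀ _ (pow_ne_zero _ (pow_ne_zero _ hlam))

/-- **Export of package E1** (Cayley–Hamilton for Frobenius by Manin's method): for an odd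
prime `l` and `4 A³ + 27 B² ≠ 0`, `π² - (l + 1 - #E(F_l)) π + l = 0` on `E(k)` for every
algebraically closed field `k ⊇ F_l`, where `E : y² = x³ + A x + B`. -/
theorem chStatement (hΔ : 4 * A ^ 3 + 27 * B ^ 2 ≠ 0) (h2 : (2 : ZMod l) ≠ 0) :
    H94.CHStatement l A B :=
  H94.cayley_hamilton_of_transfer l A B (ne_two_of_two_ne_zero l h2) hΔ h2
    (transferStatement l A B hΔ h2)

end Fermat.Agent.S52.H23
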